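import Fermat.Agent.BAD.Modular.Swap
import Fermat.Agent.RED.Specialization.FrobSeries
import Mathlib.Analysis.Complex.Polynomial.Basic
import Mathlib.FieldTheory.Perfect

/-!
# Expansions of functions of level `M q` at two cusps

The expansions of `BAD/Modular/Swap` over the algebraic numbers, for one fixed embedding into `ℂ`.
-/

set_option autoImplicit false
set_option linter.unusedSectionVars false
set_option linter.style.haveILetI false

noncomputable section

open AlgebraicCurve ModularCurve IntermediateField Fermat.Agent.HK.Corr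

namespace Fermat.Agent.BAD.Modular

/-- The field of algebraic numbers. -/
abbrev Qb : Type := AlgebraicClosure ℚ

/-- a fixed complex embedding -/
def toComplex : Qb →+* ℂ :=
  haveI : Algebra.IsAlgebraic ℚ Qb := AlgebraicClosure.isAlgebraic ℚ
  (IsAlgClosed.lift : Qb →ₐ[ℚ] ℂ).toRingHom

variable (M : ℕ) [NeZero M] {q : ℕ} [NeZero q] (hq : q.Prime) (hqM : ¬ q ∣ M)

/-- The two expansions. -/
def emb : Fin 2 → (modularFunctionFieldBar (M * q) →ₐ[Qb] LaurentSeries Qb) :=
  expansion toComplex hq hqM

theorem emb_zero_apply (f : modularFunctionFieldBar (M * q)) :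
    emb M hq hqM 0 f = (f : LaurentSeries Qb) := rfl

theorem emb_one_apply (f : modularFunctionFieldBar (M * q)) :
    emb M hq hqM 1 f = swapEmb toComplex hq hqM f := rfl

theorem emb_zero_alpha (x : modularFunctionFieldBar M) :
    emb M hq hqM 0 (heckeAlphaBar Qb M q x) = (x : LaurentSeries Qb) :=
  (emb_zero_apply M hq hqM _).trans (coe_heckeAlphaBar M q x)

theorem emb_zero_beta (x : modularFunctionFieldBar M) :
    emb M hq hqM 0 (heckeBetaBar Qb M q x) = qExpand Qb q (x : LaurentSeries Qb) :=
  (emb_zero_apply M hq hqM _).trans (coe_heckeBetaBar M q x)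

theorem emb_one_alpha (x : modularFunctionFieldBar M) :
    emb M hq hqM 1 (heckeAlphaBar Qb M q x) = qExpand Qb q (x : LaurentSeries Qb) :=
  (emb_one_apply M hq hqM _).trans (swapEmb_alpha toComplex hq hqM x)

theorem emb_one_beta (x : modularFunctionFieldBar M) :
    emb M hq hqM 1 (heckeBetaBar Qb M q x) = (x : LaurentSeries Qb) :=
  (emb_one_apply M hq hqM _).trans (swapEmb_beta toComplex hq hqM x)

theorem emb_mem_intField (i : Fin 2) (f : modularFunctionFieldBar (M * q)) :
    emb M hq hqM i f ∈ Gauss.intField Qb :=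
  expansion_mem_intField toComplex hq hqM i f

theorem emb_arith (σ : Qb ≃ₐ[ℚ] Qb) (i : Fin 2) (f : modularFunctionFieldBar (M * q)) :
    emb M hq hqM i (arithmeticGalois (modularFunctionFieldFull (M * q)) σ • f) =
      coeffMap (σ : Qb →+* Qb) (emb M hq hqM i f) :=
  expansion_arith toComplex hq hqM σ i f

end Fermat.Agent.BAD.Modular
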