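import Fermat.Agent.BAD.Core.Curve
import Fermat.Agent.RED.CoordDataFF
import Fermat.Agent.FF.RiemannRoch

/-!
# Function-field lemmas for the two-branch datum
-/

set_option autoImplicit false
set_option linter.unusedSectionVars false

noncomputable section

open AlgebraicCurve IntermediateField Fermat.Agent.RED

namespace Fermat.Agent.BAD.Modular

variable {K F : Type*} [Field K] [Field F] [Algebra K F] [IsAlgClosed K] [FF.IsFunctionField K F]

theorem mem_coordRing_iff {x f : F} :
    f ∈ coordRing K x ↔ ∀ v : Place K F, 0 ≤ v.ord x → 0 ≤ v.ord f :=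
  FF.isIntegralElem_aeval_iff x f

/-- Two functions with the same poles. -/
def SamePoles (K : Type*) {F : Type*} [Field K] [Field F] [Algebra K F] (x y : F) : Prop :=
  ∀ v : Place K F, 0 ≤ v.ord x ↔ 0 ≤ v.ord y

theorem samePoles_of_isIntegral {x y : F} (hxy : y ∈ coordRing K x) (hyx : x ∈ coordRing K y) :
    SamePoles K x y := fun v =>
  ⟨mem_coordRing_iff.mp hxy v, mem_coordRing_iff.mp hyx v⟩

/-- At no place does one function have a zero where the other has a pole. -/
def NoCancel (K : Type*) {F : Type*} [Field K] [Field F] [Algebra K F] (x y : F) : Prop :=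
  ∀ v : Place K F, (0 < v.ord x → 0 ≤ v.ord y) ∧ (0 < v.ord y → 0 ≤ v.ord x)

theorem SamePoles.noCancel {x y : F} (h : SamePoles K x y) : NoCancel K x y := fun v =>
  ⟨fun hx => (h v).mp hx.le, fun hy => (h v).mpr hy.le⟩

theorem NoCancel.symm {x y : F} (h : NoCancel K x y) : NoCancel K y x := fun v =>
  ⟨(h v).2, (h v).1⟩

theorem NoCancel.inv {x y : F} (h : NoCancel K x y) : NoCancel K x⁻¹ y⁻¹ := fun v => by
  have := h v
  rw [v.ord_inv, v.ord_inv]
  omega

theorem ord_mul_of_pole {x y : F} (h : NoCancel K x y) {v : Place K F} (hv : v.ord x < 0)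
    (hy0 : y ≠ 0) : v.ord (x * y) = v.ord x + v.ord y ∧ v.ord y ≤ 0 := by
  have hx0 : x ≠ 0 := fun h0 => by simp [h0] at hv
  have := h v
  exact ⟨v.ord_mul hx0 hy0, by omega⟩

theorem poleDivisor_mul_of_noCancel {x y : F} (hx0 : x ≠ 0) (hy0 : y ≠ 0)
    (h : NoCancel K x y) :
    FF.poleDivisor K (x * y) = FF.poleDivisor K x + FF.poleDivisor K y := by
  refine Finsupp.ext fun v => ?_
  simp only [Finsupp.add_apply, FF.poleDivisor_apply, v.ord_mul hx0 hy0]
  have := h v
  omega

theorem transcendental_mul_of_noCancel {x y : F} (hx : Transcendental K x) (hy0 : y ≠ 0)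
    (h : NoCancel K x y) : Transcendental K (x * y) := by
  obtain ⟨v, hv⟩ := FF.exists_place_ord_neg hx
  obtain ⟨he, hy⟩ := ord_mul_of_pole h hv hy0
  exact FF.transcendental_of_ord_ne_zero v (by omega)

theorem finrank_adjoin_mul_of_noCancel {x y : F} (hx : Transcendental K x)
    (hy : Transcendental K y) (h : NoCancel K x y) :
    Module.finrank K⟮x * y⟯ F = Module.finrank K⟮x⟯ F + Module.finrank K⟮y⟯ F := by
  have hx0 : x ≠ 0 := fun h0 => hx (h0 ▸ isAlgebraic_zero)
  have hy0 : y ≠ 0 := fun h0 => hy (h0 ▸ isAlgebraic_zero)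
  have h1 := FF.degree_poleDivisor (transcendental_mul_of_noCancel hx hy0 h)
  rw [poleDivisor_mul_of_noCancel hx0 hy0 h, map_add, FF.degree_poleDivisor hx,
    FF.degree_poleDivisor hy] at h1
  exact_mod_cast h1.symm

theorem mem_coordRing_mul_of_noCancel {x y : F} (hy0 : y ≠ 0) (h : NoCancel K x y) {f : F}
    (hf : f ∈ coordRing K x) : f ∈ coordRing K (x * y) := by
  refine mem_coordRing_iff.mpr fun v hv => mem_coordRing_iff.mp hf v ?_
  by_contra hn
  obtain ⟨he, hy⟩ := ord_mul_of_pole h (not_le.mp hn) hy0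
  omega

theorem finrank_adjoin_pow {x : F} (hx : Transcendental K x) {n : ℕ} (hn : n ≠ 0) :
    Module.finrank K⟮x ^ n⟯ F = n * Module.finrank K⟮x⟯ F := by
  have hp : FF.poleDivisor K (x ^ n) = n • FF.poleDivisor K x := by
    refine Finsupp.ext fun v => ?_
    simp only [Finsupp.smul_apply, FF.poleDivisor_apply, FF.ord_pow, nsmul_eq_mul]
    rcases le_total 0 (v.ord x) with hv | hv
    · rw [max_eq_right (by nlinarith), max_eq_right (by omega), mul_zero]
    · rw [max_eq_left (by nlinarith), max_eq_left (by omega)]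
      ring
  have h1 := FF.degree_poleDivisor (hx.pow (Nat.pos_of_ne_zero hn))
  rw [hp, map_nsmul, FF.degree_poleDivisor hx, nsmul_eq_mul] at h1
  exact_mod_cast h1.symm

theorem coordRing_pow {x : F} {n : ℕ} (hn : n ≠ 0) :
    coordRing K (x ^ n) = coordRing K x := by
  have key : ∀ v : Place K F, 0 ≤ v.ord (x ^ n) ↔ 0 ≤ v.ord x := fun v => by
    rw [FF.ord_pow]
    have : (1 : ℤ) ≤ n := by exact_mod_cast Nat.pos_of_ne_zero hn
    constructor
    · intro h; nlinarith
    · intro h; positivity
  refine SetLike.ext fun f => ?_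
  simp only [mem_coordRing_iff, key]

theorem exists_eq_algebraMap_of_mem_coordRing {u : F} (hu : Transcendental K u) {f : F}
    (hf : f ∈ coordRing K u) (hf' : f ∈ coordRing K u⁻¹) :
    ∃ a : K, f = algebraMap K F a := by
  have _ := hu
  have halg : IsAlgebraic K f := FF.isAlgebraic_of_forall_ord_nonneg fun v => by
    rcases le_total 0 (v.ord u) with hv | hv
    · exact mem_coordRing_iff.mp hf v hv
    · exact mem_coordRing_iff.mp hf' v (by rw [v.ord_inv]; omega)
  have hint : IsIntegral K f := halg.isIntegral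
  have hdeg : (minpoly K f).degree = 1 :=
    IsAlgClosed.degree_eq_one_of_irreducible K (minpoly.irreducible hint)
  obtain ⟨a, ha⟩ := minpoly.mem_range_of_degree_eq_one K f hdeg
  exact ⟨a, ha.symm⟩

theorem exists_riemannRoch_bound :
    ∃ (g c₀ : ℤ), ∀ E : Divisor K F, c₀ ≤ Divisor.degree E →
      (Module.finrank K (riemannRochSpace E) : ℤ) = Divisor.degree E + 1 - g :=
  ⟨genusFF K F, 2 * (genusFF K F : ℤ) - 1, fun _ hE =>
    FF.finrank_riemannRochSpace_of_lt_degree (by omega)⟩

/-- The twisted space is a Riemann-Roch space: `L(E + m (poles of u))` with `n E = div f`. -/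
theorem twistSpace_eq_riemannRochSpace {u : F} (n : ℕ) (hn : n ≠ 0) {f : F} (hf : f ≠ 0)
    {E : Divisor K F} (hE : ∀ v : Place K F, v.ord f = n * E v) (hu0 : u ≠ 0) (m : ℕ) :
    twistSpace K u n f m = riemannRochSpace (E + m • FF.poleDivisor K u) := by
  have hn1 : (1 : ℤ) ≤ n := by exact_mod_cast Nat.pos_of_ne_zero hn
  have hiff : ∀ a : F, TwistCond K u n f m a ↔
      a ∈ riemannRochSpace (E + m • FF.poleDivisor K u) := by
    intro a
    rcases eq_or_ne a 0 with rfl | ha
    · simp [TwistCond, zero_pow hn, zero_mem]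
    have hord : ∀ v : Place K F, v.ord (a ^ n * f) = n * (v.ord a + E v) ∧
        v.ord ((a / u ^ m) ^ n * f) = n * (v.ord a - m * v.ord u + E v) := fun v => by
      have hum : u ^ m ≠ 0 := pow_ne_zero _ hu0
      rw [v.ord_mul (pow_ne_zero _ ha) hf, v.ord_mul (pow_ne_zero _ (div_ne_zero ha hum)) hf,
        FF.ord_pow, FF.ord_pow, FF.ord_div v ha hum, FF.ord_pow, hE]
      constructor <;> ring
    rw [TwistCond, mem_coordRing_iff, mem_coordRing_iff, mem_riemannRochSpace_iff]
    constructor
    · rintro ⟨h1, h2⟩ v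
      refine Or.inr ?_
      simp only [Finsupp.add_apply, Finsupp.smul_apply, FF.poleDivisor_apply, nsmul_eq_mul]
      rcases le_or_gt 0 (v.ord u) with hv | hv
      · have := h1 v hv
        rw [(hord v).1] at this
        have h0 : 0 ≤ v.ord a + E v := nonneg_of_mul_nonneg_right this (by omega)
        rw [max_eq_right (by omega), mul_zero]
        omega
      · have := h2 v (by rw [v.ord_inv]; omega)
        rw [(hord v).2] at this
        have h0 : 0 ≤ v.ord a - m * v.ord u + E v := nonneg_of_mul_nonneg_right this (by omega)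
        rw [max_eq_left (by omega), mul_neg]
        omega
    · intro h
      have h' : ∀ v : Place K F, -(E v + m * max (-v.ord u) 0) ≤ v.ord a := fun v => by
        have := (h v).resolve_left ha
        simpa [FF.poleDivisor_apply, nsmul_eq_mul] using this
      refine ⟨fun v hv => ?_, fun v hv => ?_⟩
      · rw [(hord v).1]
        have := h' v
        rw [max_eq_right (by omega), mul_zero] at this
        exact mul_nonneg (by omega) (by omega)
      · rw [(hord v).2]
        rw [v.ord_inv] at hv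
        have := h' v
        rw [max_eq_left (by omega), mul_neg] at this
        exact mul_nonneg (by omega) (by omega)
  refine le_antisymm (Submodule.span_le.mpr fun a ha => (hiff a).mp ha) fun a ha => ?_
  exact Submodule.subset_span ((hiff a).mpr ha)

theorem exists_twist_bound {u : F} (hu : Transcendental K u) (n : ℕ) (hn : n ≠ 0) (f : F)
    (hf : f ≠ 0) (hdiv : ∀ v : Place K F, (n : ℤ) ∣ v.ord f) :
    ∃ m₀ : ℕ, ∀ m, m₀ ≤ m → FiniteDimensional K (twistSpace K u n f m) ∧
      Module.finrank K (twistSpace K u n f m) = Module.finrank K (twistSpace K u 1 1 m) := by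
  have hn0 : (n : ℤ) ≠ 0 := by exact_mod_cast hn
  obtain ⟨D, hD, hD0⟩ := HasPrincipalDivisors.exists_divisor (K := K) f hf
  let E : Divisor K F := D.mapRange (fun k => k / (n : ℤ)) (Int.zero_ediv _)
  have hE : ∀ v : Place K F, v.ord f = n * E v := fun v => by
    show v.ord f = n * (D v / (n : ℤ))
    rw [hD v, Int.mul_ediv_cancel' (hdiv v)]
  have hE0 : Divisor.degree E = 0 := by
    have h : D = n • E := Finsupp.ext fun v => by
      rw [Finsupp.smul_apply, hD v, hE v, nsmul_eq_mul]
    rw [h, map_nsmul, nsmul_eq_mul] at hD0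
    exact (mul_eq_zero.mp hD0).resolve_left hn0
  have hu0 : u ≠ 0 := fun h => hu (h ▸ isAlgebraic_zero)
  obtain ⟨g, c₀, hRR⟩ := exists_riemannRoch_bound (K := K) (F := F)
  refine ⟨c₀.toNat, fun m hm => ?_⟩
  have hN : 1 ≤ Module.finrank K⟮u⟯ F :=
    haveI := FF.finiteDimensional_adjoin hu
    Module.finrank_pos
  have hdeg : Divisor.degree (m • FF.poleDivisor K u) = m * (Module.finrank K⟮u⟯ F : ℤ) := by
    rw [map_nsmul, FF.degree_poleDivisor hu, nsmul_eq_mul]
  have hbig : c₀ ≤ (m : ℤ) * (Module.finrank K⟮u⟯ F : ℤ) := by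
    have : (m : ℤ) ≤ (m : ℤ) * (Module.finrank K⟮u⟯ F : ℤ) :=
      le_mul_of_one_le_right (Int.natCast_nonneg _) (by exact_mod_cast hN)
    omega
  rw [twistSpace_eq_riemannRochSpace n hn hf hE hu0 m,
    twistSpace_eq_riemannRochSpace (E := (0 : Divisor K F)) 1 one_ne_zero one_ne_zero
      (fun v => by simp) hu0 m, zero_add]
  refine ⟨inferInstance, ?_⟩
  have h1 := hRR (E + m • FF.poleDivisor K u) (by rw [map_add, hE0, hdeg, zero_add]; exact hbig)
  have h2 := hRR (m • FF.poleDivisor K u) (by rw [hdeg]; exact hbig)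
  rw [map_add, hE0, zero_add, ← h2] at h1
  exact_mod_cast h1

end Fermat.Agent.BAD.Modular
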