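import Fermat.Agent.BAD.Modular.Twin
import Fermat.Agent.BAD.Twin.Charts
import Fermat.Agent.RED.X0LiftAll
import Fermat.Agent.Igusa.Descent

/-!
# The coordinates `j` and `1/j` of the twin of `X₀(M q)`
-/

set_option autoImplicit false
set_option linter.unusedSectionVars false
set_option linter.style.haveILetI false
set_option synthInstance.maxHeartbeats 200000

noncomputable section

open AlgebraicCurve ModularCurve IsLocalRing Polynomial Fermat.Agent.HK.Corr Fermat.Agent.RED

namespace Fermat.Agent.BAD.Modular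

/-- If an embedding sends `x`, `y` to `j`, `j(q ·)`, then `y` is integral over `L[x]`. -/
theorem mem_coordRing_of_emb {L : Type} [Field L] [CharZero L] {F : Type} [Field F] [Algebra L F]
    (e : F →ₐ[L] LaurentSeries L) {q : ℕ} [NeZero q] {x y : F} (hx : e x = jqModC L)
    (hy : e y = jqNModC L q) : y ∈ coordRing L x := by
  obtain ⟨P, hP, -, hP0, -⟩ := Igusa.exists_modularEquation (K := L) (N := q)
    (Nat.cast_ne_zero.mpr (NeZero.ne q))
  refine ⟨P, hP, e.injective ?_⟩
  rw [map_zero]
  refine (Polynomial.hom_eval₂ P (coordEval L x) e.toRingHom y).trans ?_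
  have hc : e.toRingHom.comp (coordEval L x) = Igusa.evC L := by
    refine Polynomial.ringHom_ext (fun c => ?_) ?_
    · simp [Igusa.evC, Gauss.algebraMap_eq_C]
    · simp [Igusa.evC, hx]
  rw [hc, show e.toRingHom y = jqNModC L q from hy]
  exact hP0

variable {M q : ℕ} [NeZero M] [NeZero q] (hq : q.Prime) (hqM : ¬ q ∣ M)

include hq hqM in
theorem samePoles_alpha_beta_jElem :
    haveI := MF.Coeff.isFunctionField_laurentBaseChange Qb (M * q)
    SamePoles Qb (heckeAlphaBar Qb M q (MF.Coeff.jElem Qb M))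
      (heckeBetaBar Qb M q (MF.Coeff.jElem Qb M)) := by
  haveI := MF.Coeff.isFunctionField_laurentBaseChange Qb (M * q)
  refine samePoles_of_isIntegral
    (mem_coordRing_of_emb (q := q) (emb M hq hqM 0) ?_ ?_)
    (mem_coordRing_of_emb (q := q) (emb M hq hqM 1) ?_ ?_)
  · exact (emb_zero_alpha M hq hqM _).trans (MF.Coeff.coe_jElem Qb M)
  · exact (emb_zero_beta M hq hqM _).trans (congrArg _ (MF.Coeff.coe_jElem Qb M))
  · exact (emb_one_beta M hq hqM _).trans (MF.Coeff.coe_jElem Qb M)
  · exact (emb_one_alpha M hq hqM _).trans (congrArg _ (MF.Coeff.coe_jElem Qb M))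

variable {A : ValuationSubring Qb} (hA : A.LiesOverPrime q)

/-- `1/j` in the valuation ring of level `M`. -/
def jInvW : (twin M hq hqM hA).W := RED.x0ParamInv hq hqM hA

theorem coe_jW : ((twin M hq hqM hA).jW : modularFunctionFieldBar M) = MF.Coeff.jElem Qb M :=
  (RED.coe_x0Param hq hqM hA).trans RED.jPlace_eq_jElem

theorem coe_jInvW : ((jInvW hq hqM hA : (twin M hq hqM hA).W) : modularFunctionFieldBar M) =
    (((twin M hq hqM hA).jW : modularFunctionFieldBar M))⁻¹ := rfl

theorem coordHyp_jW :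
    haveI := MF.Coeff.isFunctionField_laurentBaseChange Qb (M * q)
    (twin M hq hqM hA).CoordHyp (twin M hq hqM hA).jW := by
  haveI := MF.Coeff.isFunctionField_laurentBaseChange Qb (M * q)
  have hP := RED.x0Param_param hq hqM hA
  refine ⟨(twin M hq hqM hA).jW_frob, hP.transcendental, ?_, hP.finrank_eq.le, ?_, ?_⟩
  · rw [coe_jW hq hqM hA]; exact MF.Coeff.transcendental_jElem Qb M
  · rw [coe_jW hq hqM hA]; exact (samePoles_alpha_beta_jElem hq hqM).noCancel
  · intro c hc
    have hc' : c ∈ coordRing (ResidueField A) (jSpecial (k := ResidueField A) M) := by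
      rw [← RED.red_x0Param hq hqM hA]; exact hc
    obtain ⟨f, hf, hm, hr⟩ := (RED.x0Lift hq hqM hA).1 c hc'
    refine ⟨⟨f, hm⟩, ?_, hr⟩
    show f ∈ coordRing Qb ((RED.x0Param hq hqM hA : (RED.x0Red hq hqM hA).W) :
      modularFunctionFieldBar M)
    rw [RED.coe_x0Param]
    exact hf

theorem coordHyp_jInvW :
    haveI := MF.Coeff.isFunctionField_laurentBaseChange Qb (M * q)
    (twin M hq hqM hA).CoordHyp (jInvW hq hqM hA) := by
  haveI := MF.Coeff.isFunctionField_laurentBaseChange Qb (M * q)
  have hP := (RED.x0Red hq hqM hA).param_invParam (RED.x0Param_param hq hqM hA)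
  have h0 := coordHyp_jW hq hqM hA
  refine ⟨?_, hP.transcendental, ?_, hP.finrank_eq.le, ?_, ?_⟩
  · show qExpand _ q ((((RED.x0Red hq hqM hA).red (RED.x0ParamInv hq hqM hA) :
      modularFunctionFieldFullC (ResidueField A) M)) : LaurentSeries (ResidueField A)) =
        (((RED.x0Red hq hqM hA).red (RED.x0ParamInv hq hqM hA) :
          modularFunctionFieldFullC (ResidueField A) M) : LaurentSeries (ResidueField A)) ^ q
    rw [RED.red_x0ParamInv, IntermediateField.coe_inv, RED.coe_jSpecial, map_inv₀,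
      qExpand_jqModC_eq_pow hq hA, inv_pow]
  · rw [coe_jInvW hq hqM hA]
    exact fun h => h0.transcendentalE (by simpa using h.inv)
  · rw [coe_jInvW hq hqM hA, map_inv₀, map_inv₀]
    exact h0.noCancel.inv
  · intro c hc
    have hc' : c ∈ coordRing (ResidueField A) (jSpecial (k := ResidueField A) M)⁻¹ := by
      rw [← RED.red_x0ParamInv hq hqM hA]; exact hc
    obtain ⟨f, hf, hm, hr⟩ := (RED.x0Lift hq hqM hA).2 c hc'
    refine ⟨⟨f, hm⟩, ?_, hr⟩
    show f ∈ coordRing Qb ((RED.x0ParamInv hq hqM hA : (RED.x0Red hq hqM hA).W) :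
      modularFunctionFieldBar M)
    rw [RED.coe_x0ParamInv]
    exact hf

end Fermat.Agent.BAD.Modular
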