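import Fermat.Agent.BAD.Modular.Galois

/-!
# The bad reduction data of `X₀(M q)` at `q`

`curve hq hqM hA` is the `BadCurve` of the twin, with the two charts at `α j · β j` and its
inverse.
-/

set_option autoImplicit false
set_option linter.unusedSectionVars false
set_option linter.style.haveILetI false
set_option synthInstance.maxHeartbeats 200000

noncomputable section

open AlgebraicCurve ModularCurve IsLocalRing Fermat.Agent.HK.Corr

namespace Fermat.Agent.BAD.Modular

variable {M q : ℕ} [NeZero M] [NeZero q] (hq : q.Prime) (hqM : ¬ q ∣ M)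
  {A : ValuationSubring Qb} (hA : A.LiesOverPrime q)

include hq hA in
theorem exists_nonunit_ne_zero : ∃ x ∈ A.nonunits, x ≠ 0 :=
  ⟨(q : Qb), hA, Nat.cast_ne_zero.mpr hq.ne_zero⟩

/-- The bad reduction data of `X₀(M q)`. -/
def curve : BadCurve (residue A) (modularFunctionFieldBar (M * q))
    (modularFunctionFieldFullC (ResidueField A) M) :=
  haveI := Fact.mk hq
  haveI := Galois.place_charP_residueField hA hq
  haveI := Galois.place_residueField_isAlgClosed A
  haveI : PerfectRing (ResidueField A) q := PerfectField.toPerfectRing q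
  haveI := MF.Coeff.isFunctionField_laurentBaseChange Qb (M * q)
  haveI := RED.isFunctionField_special (k := ResidueField A) (N := M)
    (RED.natCast_residue_ne_zero hq hqM hA)
  (twin M hq hqM hA).badCurve (exists_nonunit_ne_zero hq hA) (coeffStable M (ResidueField A))
    (twin M hq hqM hA).jW (jInvW hq hqM hA) (coe_jInvW hq hqM hA) (coordHyp_jW hq hqM hA)
    (coordHyp_jInvW hq hqM hA)

theorem curve_q : (curve hq hqM hA).q = q := rfl

theorem coe_curve_Φ (c : modularFunctionFieldFullC (ResidueField A) M) :
    (((curve hq hqM hA).Φ c : modularFunctionFieldFullC (ResidueField A) M) :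
      LaurentSeries (ResidueField A)) = qExpand (ResidueField A) q c := rfl

theorem mem_curve_V {i : Fin 2} {f : modularFunctionFieldBar (M * q)} :
    f ∈ (curve hq hqM hA).V i ↔ f ∈ (twin M hq hqM hA).branch i := Iff.rfl

theorem curve_red_eq {i : Fin 2} {f : modularFunctionFieldBar (M * q)}
    {c : modularFunctionFieldFullC (ResidueField A) M}
    (h : (twin M hq hqM hA).Red i f (c : LaurentSeries (ResidueField A))) :
    (curve hq hqM hA).red i f = c :=
  (twin M hq hqM hA).twoBranch_red_eq (exists_nonunit_ne_zero hq hA) h

theorem curve_u : (curve hq hqM hA).u =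
    heckeAlphaBar Qb M q (MF.Coeff.jElem Qb M) * heckeBetaBar Qb M q (MF.Coeff.jElem Qb M) := by
  rw [← coe_jW hq hqM hA]
  rfl

theorem coe_curve_ubar : (((curve hq hqM hA).ubar : modularFunctionFieldFullC (ResidueField A) M) :
    LaurentSeries (ResidueField A)) = jqModC (ResidueField A) ^ (q + 1) := by
  show ((((RED.x0Red hq hqM hA).red (RED.x0Param hq hqM hA)) ^ (q + 1) :
    modularFunctionFieldFullC (ResidueField A) M) : LaurentSeries (ResidueField A)) = _
  rw [SubmonoidClass.coe_pow, RED.red_x0Param, RED.coe_jSpecial]

variable {σ : Qb ≃ₐ[ℚ] Qb}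

/-- Inertia induces the identity on the residue fields. -/
theorem curve_sym_inertia (hσ : σ ∈ A.inertiaSubgroupIn ℚ) :
    (curve hq hqM hA).Sym (galF M q σ)
      (RingEquiv.refl (modularFunctionFieldFullC (ResidueField A) M)) := by
  haveI := Fact.mk hq
  haveI := Galois.place_charP_residueField hA hq
  haveI := Galois.place_residueField_isAlgClosed A
  haveI : PerfectRing (ResidueField A) q := PerfectField.toPerfectRing q
  haveI := MF.Coeff.isFunctionField_laurentBaseChange Qb (M * q)
  haveI := RED.isFunctionField_special (k := ResidueField A) (N := M)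
    (RED.natCast_residue_ne_zero hq hqM hA)
  have hcw := isCoeffwise hq hqM hA (Galois.inertia_le_decomposition A hσ)
  have hrefl : coeffRingEquiv (coeffStable M (ResidueField A)) (RingEquiv.refl (ResidueField A)) =
      RingEquiv.refl (modularFunctionFieldFullC (ResidueField A) M) :=
    RingEquiv.ext fun x => Subtype.ext
      ((coeffMap_congr (g := RingHom.id (ResidueField A)) (RingHom.ext fun _ => rfl) _).trans
        (coeffMap_id _))
  rw [← hrefl]
  exact (twin M hq hqM hA).badCurve_sym (exists_nonunit_ne_zero hq hA) _ (coe_jInvW hq hqM hA)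
    (coordHyp_jW hq hqM hA) (coordHyp_jInvW hq hqM hA) hcw _
    (fun c => residue_galF_inertia hσ c _) (galF_coordU hq hqM hA σ)

end Fermat.Agent.BAD.Modular
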