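import Fermat.Agent.BAD.Modular.PushHecke
import Fermat.Agent.BAD.Modular.Curve
import Fermat.Agent.BAD.Twin.Nodal
import Fermat.Prelude.Def_ModularCurve_ArithmeticGalois
import Fermat.Prelude.Def_FLTPrelim_Ramification

/-!
# Monodromy and Frobenius of `J₀(M q)` at `q`
-/

set_option autoImplicit false
set_option linter.unusedSectionVars false
set_option linter.style.haveILetI false
set_option synthInstance.maxHeartbeats 200000

noncomputable section

open AlgebraicCurve ModularCurve

namespace Fermat.Agent.BAD.Modular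

variable {M q : ℕ} [NeZero M] [NeZero q]
variable (hq : q.Prime) (hqM : ¬ q ∣ M) {A : ValuationSubring (AlgebraicClosure ℚ)}
  (hA : A.LiesOverPrime q) {σ : AlgebraicClosure ℚ ≃ₐ[ℚ] AlgebraicClosure ℚ}

include hq hA in
theorem natCast_residue_ne_zero_of_not_dvd {n : ℕ} (hn : ¬ q ∣ n) :
    (n : IsLocalRing.ResidueField A) ≠ 0 := by
  haveI := Galois.place_charP_residueField hA hq
  exact fun h => hn ((CharP.cast_eq_zero_iff _ q n).mp h)

include hq hqM hA

/-- Inertia at `q` acts unipotently of level two on torsion prime to `q`. -/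
theorem inertia_jZero (hσ : σ ∈ A.inertiaSubgroupIn ℚ) {n : ℕ} (hn : ¬ q ∣ n)
    {z : JZero (M * q)} (hz : n • z = 0) :
    σ • (σ • z - z) = σ • z - z := by
  haveI := Galois.place_residueField_isAlgClosed A
  exact (curve hq hqM hA).inertia_sub_one_sq (curve_sym_inertia hq hqM hA hσ)
    (natCast_residue_ne_zero_of_not_dvd hq hA hn) hz

/-- The square of a Frobenius at `q` on classes killed by both pushforwards to level `M`. -/
theorem frobenius_jZero (hσ : A.IsFrobeniusAt σ q) {n : ℕ} (hn : ¬ q ∣ n)
    {z : JZero (M * q)} (hz : n • z = 0)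
    (h1 : degenPush (AlgebraicClosure ℚ) (M := M) (q := q) 1 (mul_dvd_mul_left M (one_dvd q)) z = 0)
    (h2 : degenPush (AlgebraicClosure ℚ) (M := M) (q := q) q dvd_rfl z = 0) :
    σ • σ • (σ • σ • z - z) = (q ^ 2) • (σ • σ • z - z) := by
  haveI := Fact.mk hq
  haveI := Galois.place_charP_residueField hA hq
  haveI := Galois.place_residueField_isAlgClosed A
  haveI : PerfectRing (IsLocalRing.ResidueField A) q := PerfectField.toPerfectRing q
  haveI := MF.Coeff.isFunctionField_laurentBaseChange Qb (M * q)
  haveI := MF.Coeff.isFunctionField_laurentBaseChange Qb M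
  haveI := RED.isFunctionField_special (k := IsLocalRing.ResidueField A) (N := M)
    (RED.natCast_residue_ne_zero hq hqM hA)
  have hcw := isCoeffwise hq hqM hA (σ := σ) (Galois.isFrobeniusAt_iff.mp hσ).1
  have hnew : ((twin M hq hqM hA).nodal
      (coeffStable M (IsLocalRing.ResidueField A))).IsPushTrivial z := by
    obtain ⟨D, rfl⟩ := Pic0.mk_surjective z
    rw [degenPush_mk] at h1 h2
    have key : ∀ {Z : Divisor.degZero (K := Qb) (F := modularFunctionFieldBar M)},
        Pic0.mk Z = 0 → Divisor.IsPrincipal (Z : Divisor Qb (modularFunctionFieldBar M)) := by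
      intro Z hZ
      have h := (QuotientAddGroup.eq_zero_iff Z).mp hZ
      rw [AddSubgroup.mem_addSubgroupOf] at h
      exact Divisor.mem_principal.mp h
    have k1 := key h1
    have k2 := key h2
    rw [coe_degenPushDegZero] at k1 k2
    rw [degenPushDiv_eq_alpha _ (FF.isIntegral_of_finiteAlong
      (twin M hq hqM hA).finite_a)] at k1
    rw [degenPushDiv_eq_beta _ (FF.isIntegral_of_finiteAlong
      (twin M hq hqM hA).finite_b)] at k2
    exact ⟨D, rfl, k1, k2⟩
  exact Twin.frobenius_relation (coeffStable M (IsLocalRing.ResidueField A))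
    (exists_nonunit_ne_zero hq hA) (coe_jInvW hq hqM hA) (coordHyp_jW hq hqM hA)
    (coordHyp_jInvW hq hqM hA) hcw
    (fun c => (residue_galF_frobenius hσ c _).trans (frobeniusEquiv_apply _ q _))
    (galF_coordU hq hqM hA σ) (natCast_residue_ne_zero_of_not_dvd hq hA hn) hz hnew

end Fermat.Agent.BAD.Modular
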