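import Fermat.Agent.BAD.Modular.Coord
import Fermat.Agent.Galois.Decomposition

/-!
# The decomposition group at `q` on the twin of `X₀(M q)`
-/

set_option autoImplicit false
set_option linter.unusedSectionVars false
set_option linter.style.haveILetI false
set_option synthInstance.maxHeartbeats 200000

noncomputable section

open AlgebraicCurve ModularCurve IsLocalRing Fermat.Agent.HK.Corr

namespace Fermat.Agent.BAD.Modular

theorem coeffStable (M : ℕ) [NeZero M] (k : Type*) [Field k] :
    CoeffStable (modularFunctionFieldFullC k M) :=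
  fun φ _ hc => RED.Spec.coeffMap_mem_fullC M φ hc

variable {M q : ℕ} [NeZero M] [NeZero q] (hq : q.Prime) (hqM : ¬ q ∣ M)
  {A : ValuationSubring Qb} (hA : A.LiesOverPrime q) {σ : Qb ≃ₐ[ℚ] Qb}

/-- A Galois automorphism on functions of level `M q`. -/
abbrev galF (M q : ℕ) (σ : Qb ≃ₐ[ℚ] Qb) : SemilinearAut Qb (modularFunctionFieldBar (M * q)) :=
  arithmeticGalois (modularFunctionFieldFull (M * q)) σ

theorem isCoeffwise (hσ : σ ∈ A.decompositionSubgroup ℚ) :
    (twin M hq hqM hA).IsCoeffwise (galF M q σ) :=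
  ⟨fun c => Galois.decomposition_apply_mem hσ c.2, emb_arith M hq hqM σ⟩

theorem residue_galF_inertia (hσ : σ ∈ A.inertiaSubgroupIn ℚ) (c : A)
    (h : SemilinearAut.baseAut (galF M q σ) (c : Qb) ∈ A) :
    residue A ⟨_, h⟩ = RingEquiv.refl (ResidueField A) (residue A c) :=
  Galois.residue_eq_residue_iff.mpr (Galois.inertia_sub_mem_nonunits hσ c.2)

theorem residue_galF_frobenius [Fact q.Prime] [CharP (ResidueField A) q]
    [PerfectRing (ResidueField A) q] (hσ : A.IsFrobeniusAt σ q) (c : A)
    (h : SemilinearAut.baseAut (galF M q σ) (c : Qb) ∈ A) :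
    residue A ⟨_, h⟩ = frobeniusEquiv (ResidueField A) q (residue A c) := by
  rw [frobeniusEquiv_apply, frobenius_def, ← map_pow, Galois.residue_eq_residue_iff]
  exact Galois.isFrobeniusAt_sub_mem_nonunits hσ c.2

theorem smul_jElem (σ : Qb ≃ₐ[ℚ] Qb) (N : ℕ) [NeZero N] :
    arithmeticGalois (modularFunctionFieldFull N) σ • MF.Coeff.jElem Qb N =
      MF.Coeff.jElem Qb N :=
  Subtype.ext <| by
    rw [coe_arithmeticGalois_smul, MF.Coeff.coe_jElem, coeffMap_jqModC]

theorem galF_coordU (σ : Qb ≃ₐ[ℚ] Qb) :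
    galF M q σ • (twin M hq hqM hA).coordU (twin M hq hqM hA).jW =
      (twin M hq hqM hA).coordU (twin M hq hqM hA).jW := by
  show galF M q σ • (heckeAlphaBar Qb M q ((twin M hq hqM hA).jW : modularFunctionFieldBar M) *
      heckeBetaBar Qb M q ((twin M hq hqM hA).jW : modularFunctionFieldBar M)) = _
  rw [smul_mul', arith_smul_alpha, arith_smul_beta, coe_jW, smul_jElem, ← coe_jW hq hqM hA]
  rfl

end Fermat.Agent.BAD.Modular
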