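import Fermat.Agent.HK.DegenDegree
import Fermat.Agent.MF.Coeff.BaseChange
import Fermat.Agent.HK.HeckeFinal

/-!
# `j ∈ L(j(q^a), j(q^b))` for coprime `a`, `b`

The substitution by an Atkin–Lehner matrix of level `a b` carries relations between `j(τ)` and
`j(abτ)` to relations between `j(aτ)` and `j(bτ)` and back, so the two pairs generate fields of
the same degree over `L(j_a)`.
-/

set_option autoImplicit false

noncomputable section

open ModularCurve IntermediateField MvPolynomial UpperHalfPlane ModularForm EisensteinSeries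
open Fermat.Agent.MF Fermat.Agent.HK.Corr
open scoped MatrixGroups

namespace Fermat.Agent.BAD.Modular

section Analytic

variable (a b : ℕ) [NeZero a] [NeZero b]

theorem coeffEmb_qExpand_jq (c : ℕ) [NeZero c] :
    coeffEmb ℂ (qExpand ℚ c jq) = jdC c :=
  (coeffEmb_qExpand_eq c jq).trans (congrArg (qExpand ℂ c) coeffEmb_jq)

/-- A relation between `j_a` and `j_b` holds as series iff as functions. -/
theorem aeval_jdC_pair_eq_zero_iff (P : MvPolynomial (Fin 2) ℂ) :
    MvPolynomial.aeval ![jdC a, jdC b] P = 0 ↔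
      ∀ τ : ℍ, MvPolynomial.aeval ![kleinJ (scaleH a τ), kleinJ (scaleH b τ)] P = 0 := by
  let E4a : qFunctions :=
    ⟨⇑E₄ ∘ scaleH a, mem_qFunctions_comp_scaleH (coe_levelOne_mem_qFunctions E₄) a⟩ ^ 3
  let Da : qFunctions :=
    ⟨discriminant ∘ scaleH a, mem_qFunctions_comp_scaleH mem_qFunctions_discriminant a⟩
  let E4b : qFunctions :=
    ⟨⇑E₄ ∘ scaleH b, mem_qFunctions_comp_scaleH (coe_levelOne_mem_qFunctions E₄) b⟩ ^ 3
  let Db : qFunctions :=
    ⟨discriminant ∘ scaleH b, mem_qFunctions_comp_scaleH mem_qFunctions_discriminant b⟩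
  let n := P.totalDegree
  let G : qFunctions := ∑ e ∈ P.support,
    P.coeff e • (E4a ^ e 0 * Da ^ (n - e 0) * (E4b ^ e 1 * Db ^ (n - e 1)))
  have hL : qLHom G = MvPolynomial.aeval ![jdC a, jdC b] P * (qLHom Da ^ n * qLHom Db ^ n) := by
    refine map_sum_bihom qLHom P n le_rfl E4a Da E4b Db (jdC a) (jdC b) ?_ ?_
    · exact (jdC_mul_discriminant a).symm
    · exact (jdC_mul_discriminant b).symm
  have hF : ∀ τ : ℍ, (G : ℍ → ℂ) τ
      = MvPolynomial.aeval ![kleinJ (scaleH a τ), kleinJ (scaleH b τ)] P *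
        (discriminant (scaleH a τ) ^ n * discriminant (scaleH b τ) ^ n) := fun τ => by
    refine map_sum_bihom ((Pi.evalAlgHom ℂ (fun _ : ℍ => ℂ) τ).comp qFunctions.val) P n le_rfl
      E4a Da E4b Db _ _ ?_ ?_
    · exact (kleinJ_mul_discriminant (scaleH a τ)).symm
    · exact (kleinJ_mul_discriminant (scaleH b τ)).symm
  constructor
  · intro h τ
    rw [h, zero_mul] at hL
    have hG : G = 0 := qLHom_injective (hL.trans (map_zero qLHom).symm)
    have := hF τ
    rw [hG] at this
    exact (mul_eq_zero.mp this.symm).resolve_right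
      (mul_ne_zero (pow_ne_zero _ (discriminant_ne_zero _))
        (pow_ne_zero _ (discriminant_ne_zero _)))
  · intro h
    have hG : G = 0 := Subtype.ext (funext fun τ => by rw [hF, h τ, zero_mul]; rfl)
    rw [hG, map_zero] at hL
    refine (mul_eq_zero.mp hL.symm).resolve_right (mul_ne_zero (pow_ne_zero _ ?_) (pow_ne_zero _ ?_))
    · show qL (discriminant ∘ scaleH a) ≠ 0
      rw [Ne, qL_eq_zero_iff (mem_qFunctions_comp_scaleH mem_qFunctions_discriminant a)]
      exact fun h0 => discriminant_ne_zero (scaleH a UpperHalfPlane.I) (congrFun h0 UpperHalfPlane.I)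
    · show qL (discriminant ∘ scaleH b) ≠ 0
      rw [Ne, qL_eq_zero_iff (mem_qFunctions_comp_scaleH mem_qFunctions_discriminant b)]
      exact fun h0 => discriminant_ne_zero (scaleH b UpperHalfPlane.I) (congrFun h0 UpperHalfPlane.I)

theorem kleinJ_eq_of_moebius {z w : ℍ} (p r s t : ℤ) (hdet : p * t - r * s = 1)
    (h : (w : ℂ) = ((p : ℂ) * z + r) / ((s : ℂ) * z + t)) : kleinJ w = kleinJ z := by
  let γ : SL(2, ℤ) := ⟨!![p, r; s, t], by rw [Matrix.det_fin_two_of]; exact hdet⟩
  have hw : w = γ • z := by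
    apply UpperHalfPlane.ext
    rw [h, UpperHalfPlane.coe_specialLinearGroup_apply]
    simp [γ]
  rw [hw, kleinJ_smul]

/-- Atkin–Lehner substitution: relations between `(j, j_ab)` and `(j_a, j_b)` correspond. -/
theorem aeval_jdC_atkin_iff (hab : a.Coprime b) (P : MvPolynomial (Fin 2) ℂ) :
    MvPolynomial.aeval ![jdC 1, jdC (a * b)] P = 0 ↔
      MvPolynomial.aeval ![jdC a, jdC b] P = 0 := by
  obtain ⟨x, y, hxy⟩ : IsCoprime (a : ℤ) (b : ℤ) := Int.isCoprime_iff_gcd_eq_one.mpr (by simpa using hab)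
  have hdet : x * (a : ℤ) + y * b = 1 := hxy
  have ha : (a : ℂ) ≠ 0 := Nat.cast_ne_zero.mpr (NeZero.ne a)
  have hb : (b : ℂ) ≠ 0 := Nat.cast_ne_zero.mpr (NeZero.ne b)
  rw [aeval_jdC_pair_eq_zero_iff, aeval_jdC_pair_eq_zero_iff]
  constructor
  · intro h τ
    let γ : SL(2, ℤ) := ⟨!![x, -y; (b : ℤ), (a : ℤ)], by
      rw [Matrix.det_fin_two_of]; linarith⟩
    let ρ : ℍ := γ • scaleH a τ
    have hρ : (ρ : ℂ) = ((x : ℂ) * ((a : ℂ) * τ) + -(y : ℂ)) /
        ((b : ℂ) * ((a : ℂ) * τ) + (a : ℂ)) := by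
      show ((γ • scaleH a τ : ℍ) : ℂ) = _
      rw [UpperHalfPlane.coe_specialLinearGroup_apply]
      simp [γ, coe_scaleH]
    have h1 : kleinJ (scaleH 1 ρ) = kleinJ (scaleH a τ) := by
      rw [scaleH_one]; exact kleinJ_smul γ _
    have h2 : kleinJ (scaleH (a * b) ρ) = kleinJ (scaleH b τ) := by
      refine kleinJ_eq_of_moebius (x * a) (-y * b) 1 1 (by linarith) ?_
      rw [coe_scaleH, hρ, coe_scaleH]
      push_cast
      field_simp
    have := h ρ
    rwa [h1, h2] at this
  · intro h τ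
    let δ : SL(2, ℤ) := ⟨!![x * a, -y; (b : ℤ), 1], by
      rw [Matrix.det_fin_two_of]; linarith⟩
    let ρ : ℍ := ⟨((δ • τ : ℍ) : ℂ) / (a : ℂ), by
      rw [Complex.div_natCast_im]
      exact div_pos (δ • τ).im_pos (Nat.cast_pos.mpr (Nat.pos_of_ne_zero (NeZero.ne a)))⟩
    have hρ : (ρ : ℂ) = (((x : ℂ) * a) * τ + -(y : ℂ)) / ((b : ℂ) * τ + 1) / a := by
      show ((δ • τ : ℍ) : ℂ) / (a : ℂ) = _
      rw [UpperHalfPlane.coe_specialLinearGroup_apply]
      simp [δ]
    have h1 : kleinJ (scaleH a ρ) = kleinJ (scaleH 1 τ) := by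
      rw [scaleH_one, show scaleH a ρ = δ • τ from UpperHalfPlane.ext ?_, kleinJ_smul]
      rw [coe_scaleH]
      exact mul_div_cancel₀ _ ha
    have h2 : kleinJ (scaleH b ρ) = kleinJ (scaleH (a * b) τ) := by
      refine kleinJ_eq_of_moebius x (-y * b) 1 a (by linarith) ?_
      rw [coe_scaleH, hρ, coe_scaleH]
      push_cast
      field_simp
    have := h ρ
    rwa [h1, h2] at this

/-- The same over `ℚ`. -/
theorem aeval_jq_atkin_iff (hab : a.Coprime b) (P : MvPolynomial (Fin 2) ℚ) :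
    MvPolynomial.aeval ![qExpand ℚ 1 jq, qExpand ℚ (a * b) jq] P = 0 ↔
      MvPolynomial.aeval ![qExpand ℚ a jq, qExpand ℚ b jq] P = 0 := by
  have key : ∀ c e : ℕ, ∀ _ : NeZero c, ∀ _ : NeZero e,
      MvPolynomial.aeval ![qExpand ℚ c jq, qExpand ℚ e jq] P = 0 ↔
        MvPolynomial.aeval ![jdC c, jdC e] (MvPolynomial.map (algebraMap ℚ ℂ) P) = 0 := by
    intro c e _ _
    have hs : (fun i => coeffEmb ℂ (![qExpand ℚ c jq, qExpand ℚ e jq] i)) = ![jdC c, jdC e] := by
      ext i : 1
      fin_cases i <;> exact coeffEmb_qExpand_jq _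
    rw [← hs, ← coeffEmb_aeval]
    exact (map_eq_zero _).symm
  rw [key 1 (a * b) _ _, key a b _ _, aeval_jdC_atkin_iff a b hab]

end Analytic

section Descent

variable {L : Type*} [Field L] [Algebra ℚ L]

/-- Relations with rational series descend to relations over `ℚ`. -/
theorem relation_transfer (s t : Fin 2 → LaurentSeries ℚ)
    (h : ∀ Q : MvPolynomial (Fin 2) ℚ, MvPolynomial.aeval s Q = 0 → MvPolynomial.aeval t Q = 0)
    {P : MvPolynomial (Fin 2) L}
    (hP : MvPolynomial.aeval (fun i => coeffEmb L (s i)) P = 0) :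
    MvPolynomial.aeval (fun i => coeffEmb L (t i)) P = 0 := by
  ext k
  rw [HahnSeries.coeff_zero]
  by_contra hne
  obtain ⟨φ, hφ⟩ := (LinearMap.toSpanSingleton ℚ L _).exists_leftInverse_of_injective
    (LinearMap.ker_eq_bot.mpr (smul_left_injective ℚ hne))
  have hφ1 := LinearMap.congr_fun hφ 1
  simp only [LinearMap.comp_apply, LinearMap.toSpanSingleton_apply, one_smul,
    LinearMap.id_apply] at hφ1
  rw [map_coeff_aeval] at hφ1
  set Q := ∑ e ∈ P.support, monomial e (φ (P.coeff e)) with hQ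
  have hQ0 : MvPolynomial.aeval s Q = 0 := by
    ext m
    rw [hQ, ← map_coeff_aeval φ, hP, HahnSeries.coeff_zero, map_zero, HahnSeries.coeff_zero]
  rw [h Q hQ0, HahnSeries.coeff_zero] at hφ1
  exact zero_ne_one hφ1

theorem qExpand_one_jSer : qExpand L 1 (jSer L) = jSer L := qExpand_one_apply _

theorem coeffEmb_pair (c e : ℕ) [NeZero c] [NeZero e] :
    (fun i => coeffEmb L (![qExpand ℚ c jq, qExpand ℚ e jq] i)) =
      ![qExpand L c (jSer L), qExpand L e (jSer L)] := by
  ext i : 1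
  fin_cases i <;> exact coeffEmb_qExpand_eq _ jq

variable (a b : ℕ) [NeZero a] [NeZero b]

/-- The correspondence of relations over `L`. -/
theorem aeval_atkin_iff (hab : a.Coprime b) (P : MvPolynomial (Fin 2) L) :
    MvPolynomial.aeval ![qExpand L 1 (jSer L), qExpand L (a * b) (jSer L)] P = 0 ↔
      MvPolynomial.aeval ![qExpand L a (jSer L), qExpand L b (jSer L)] P = 0 := by
  rw [← coeffEmb_pair, ← coeffEmb_pair]
  exact ⟨relation_transfer _ _ fun Q => (aeval_jq_atkin_iff a b hab Q).mp,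
    relation_transfer _ _ fun Q => (aeval_jq_atkin_iff a b hab Q).mpr⟩

open scoped IntermediateField.algebraAdjoinAdjoin in
variable (L) in
/-- An embedding `j ↦ j_a`, `j_ab ↦ j_b`. -/
theorem exists_atkinEmbedding (hab : a.Coprime b) :
    ∃ σ : adjoin L ({qExpand L 1 (jSer L), qExpand L (a * b) (jSer L)} : Set (LaurentSeries L))
        →ₐ[L] LaurentSeries L,
      σ ⟨qExpand L 1 (jSer L), subset_adjoin L _ (Set.mem_insert _ _)⟩ = qExpand L a (jSer L) ∧
      σ ⟨qExpand L (a * b) (jSer L), subset_adjoin L _ (Set.mem_insert_of_mem _ rfl)⟩ =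
        qExpand L b (jSer L) := by
  let S : Set (LaurentSeries L) := {qExpand L 1 (jSer L), qExpand L (a * b) (jSer L)}
  let f : MvPolynomial (Fin 2) L →ₐ[L] Algebra.adjoin L S :=
    MvPolynomial.aeval ![⟨qExpand L 1 (jSer L), Algebra.subset_adjoin (Set.mem_insert _ _)⟩,
      ⟨qExpand L (a * b) (jSer L), Algebra.subset_adjoin (Set.mem_insert_of_mem _ rfl)⟩]
  have hf : (Algebra.adjoin L S).val.comp f
      = MvPolynomial.aeval ![qExpand L 1 (jSer L), qExpand L (a * b) (jSer L)] := by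
    refine MvPolynomial.algHom_ext fun i => ?_
    fin_cases i <;> simp [f]
  have hsurj : Function.Surjective f := by
    intro x
    have hx : (x : LaurentSeries L) ∈ (MvPolynomial.aeval (R := L)
        ![qExpand L 1 (jSer L), qExpand L (a * b) (jSer L)]).range := by
      rw [← Algebra.adjoin_range_eq_range_aeval, range_pair]
      exact x.2
    obtain ⟨P, hP⟩ := hx
    exact ⟨P, Subtype.ext ((AlgHom.congr_fun hf P).trans hP)⟩
  let h₂ : MvPolynomial (Fin 2) L →ₐ[L] LaurentSeries L :=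
    MvPolynomial.aeval ![qExpand L a (jSer L), qExpand L b (jSer L)]
  have hkey : ∀ P, f P = 0 ↔ h₂ P = 0 := fun P => by
    refine Iff.trans ?_ (aeval_atkin_iff a b hab P)
    rw [← hf, AlgHom.comp_apply]
    exact (map_eq_zero_iff _ Subtype.val_injective).symm
  have hker : RingHom.ker f.toRingHom ≤ RingHom.ker h₂.toRingHom := fun P hP =>
    RingHom.mem_ker.mpr ((hkey P).mp (RingHom.mem_ker.mp hP))
  let g₀ := f.toRingHom.liftOfSurjective hsurj ⟨h₂.toRingHom, hker⟩
  have hg₀ : ∀ P, g₀ (f P) = h₂ P := fun P =>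
    RingHom.liftOfRightInverse_comp_apply f.toRingHom _ _ ⟨h₂.toRingHom, hker⟩ P
  let g : Algebra.adjoin L S →ₐ[L] LaurentSeries L :=
    { g₀ with commutes' := fun c => by simpa [AlgHom.commutes] using hg₀ (MvPolynomial.C c) }
  have hg : Function.Injective g := by
    rw [injective_iff_map_eq_zero]
    intro x hx
    obtain ⟨P, rfl⟩ := hsurj x
    exact (hkey P).mpr ((hg₀ P).symm.trans hx)
  refine ⟨IsFractionRing.liftAlgHom hg, ?_, ?_⟩
  · rw [show (⟨qExpand L 1 (jSer L), _⟩ : adjoin L S) = algebraMap (Algebra.adjoin L S) (adjoin L S)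
      ⟨qExpand L 1 (jSer L), Algebra.subset_adjoin (Set.mem_insert _ _)⟩ from rfl]
    refine Eq.trans ?_ (by simpa [f, h₂] using hg₀ (MvPolynomial.X 0))
    exact IsFractionRing.lift_algebraMap hg _
  · rw [show (⟨qExpand L (a * b) (jSer L), _⟩ : adjoin L S)
      = algebraMap (Algebra.adjoin L S) (adjoin L S)
      ⟨qExpand L (a * b) (jSer L), Algebra.subset_adjoin (Set.mem_insert_of_mem _ rfl)⟩ from rfl]
    refine Eq.trans ?_ (by simpa [f, h₂] using hg₀ (MvPolynomial.X 1))
    exact IsFractionRing.lift_algebraMap hg _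

variable (L) in
/-- `j ∈ L(j_a, j_b)` over every field of characteristic zero. -/
theorem jSer_mem_adjoin_pair {a b : ℕ} [NeZero a] [NeZero b] (hab : a.Coprime b) :
    jSer L ∈ adjoin L ({qExpand L a (jSer L), qExpand L b (jSer L)} : Set (LaurentSeries L)) := by
  obtain ⟨σ, hσ₁, hσ₂⟩ := exists_atkinEmbedding L a b hab
  have hD : DegreeInput L := degreeInput L
  let F := adjoin L ({qExpand L 1 (jSer L), qExpand L (a * b) (jSer L)} : Set (LaurentSeries L))
  let E := adjoin L ({qExpand L a (jSer L), qExpand L b (jSer L)} : Set (LaurentSeries L))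
  have hF : modField L (a * b) = F := by
    rw [modField_eq_pair (functionFieldGeneration_all (a * b))]
    show _ = adjoin L ({qExpand L 1 (jSer L), qExpand L (a * b) (jSer L)} : Set (LaurentSeries L))
    rw [qExpand_one_jSer]
  have hEF : E ≤ modField L (a * b) := adjoin_le_iff.mpr (by
    rintro z (rfl | rfl)
    · exact qExpand_jSer_mem (dvd_mul_right a b)
    · exact qExpand_jSer_mem (dvd_mul_left b a))
  let y : F := ⟨qExpand L 1 (jSer L), subset_adjoin L _ (Set.mem_insert _ _)⟩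
  let z : F := ⟨qExpand L (a * b) (jSer L), subset_adjoin L _ (Set.mem_insert_of_mem _ rfl)⟩
  have htop : (⊤ : IntermediateField L F) = adjoin L {y, z} := by
    refine IntermediateField.map_injective F.val ?_
    rw [adjoin_map, Set.image_pair, ← AlgHom.fieldRange_eq_map, fieldRange_val]
    rfl
  have h₁ : (jLine L).relfinrank F = (adjoin L {y}).relfinrank ⊤ := by
    rw [← relfinrank_map_map (adjoin L {y}) ⊤ F.val, adjoin_map, Set.image_singleton,
      ← AlgHom.fieldRange_eq_map, fieldRange_val]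
    show _ = (adjoin L {qExpand L 1 (jSer L)}).relfinrank F
    rw [qExpand_one_jSer, jLine]
  have h₂ : (adjoin L {qExpand L a (jSer L)}).relfinrank E = (adjoin L {y}).relfinrank ⊤ := by
    rw [← relfinrank_map_map (adjoin L {y}) ⊤ σ, htop, adjoin_map, adjoin_map, Set.image_singleton,
      Set.image_pair, hσ₁, hσ₂]
  have hAE : adjoin L {qExpand L a (jSer L)} ≤ E :=
    adjoin.mono _ _ _ (Set.singleton_subset_iff.mpr (Set.mem_insert _ _))
  have h3 := relfinrank_mul_relfinrank hAE hEF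
  have h4 := relfinrank_qExpand_jSer hD (M := a * b) (dvd_mul_right a b)
    (functionFieldGeneration_all a)
  rw [h4, h₂, ← h₁, ← hF, hD.relfinrank_eq] at h3
  have h5 : E.relfinrank (modField L (a * b)) = 1 :=
    Nat.eq_of_mul_eq_mul_left (psi_pos (a * b)) (h3.trans (mul_one _).symm)
  exact relfinrank_eq_one_iff.mp h5 (jSer_mem_modField (a * b))

end Descent

end Fermat.Agent.BAD.Modular
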