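import Fermat.Agent.BAD.Modular.PushGen
import Fermat.Agent.HK.HeckeCommute

/-!
# Degeneracy pushforwards commute with Hecke correspondences away from the level

For `q` prime not dividing `M` and `ℓ` prime not dividing `M q`, both pushforwards from level
`M q` to level `M` intertwine `T_ℓ`.
-/

set_option autoImplicit false
set_option linter.style.haveILetI false

noncomputable section

open AlgebraicCurve ModularCurve IntermediateField
open Fermat.Agent.HK.Corr

namespace Fermat.Agent.BAD.Modular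

section Abstract

variable {K F F' Z Z' : Type*} [Field K] [Field F] [Field F'] [Field Z] [Field Z']
  [Algebra K F] [Algebra K F'] [Algebra K Z] [Algebra K Z']

theorem pushforwardAlong_congr {φ φ' : F →ₐ[K] F'} (e : φ = φ')
    (hφ : φ.toRingHom.IsIntegral) (hφ' : φ'.toRingHom.IsIntegral) :
    Divisor.pushforwardAlong φ hφ = Divisor.pushforwardAlong φ' hφ' := by
  subst e
  rfl

/-- A pushforward intertwines two correspondences fitting in a cartesian square. -/
theorem pushforward_correspondence [HasPrincipalDivisors K F'] [HasPrincipalDivisors K Z]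
    [HasPrincipalDivisors K Z'] (φ : F →ₐ[K] F') (φ' : Z →ₐ[K] Z')
    (b a : F →ₐ[K] Z) (b' a' : F' →ₐ[K] Z')
    (hsqb : φ'.comp b = b'.comp φ) (hsqa : φ'.comp a = a'.comp φ)
    (hφ : φ.toRingHom.IsIntegral) (hφ' : φ'.toRingHom.IsIntegral)
    (hb : b.toRingHom.IsIntegral) (ha : a.toRingHom.IsIntegral)
    (hb' : b'.toRingHom.IsIntegral) (ha' : a'.toRingHom.IsIntegral)
    (hcomp : (φ'.comp a).toRingHom.IsIntegral)
    (hfin : FiniteAlong K φ) (hfin' : FiniteAlong K φ')
    (hsep : SeparableAlong K φ) (hsep' : SeparableAlong K φ')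
    (hgen : φ'.fieldRange ⊔ b'.fieldRange = ⊤) (hdeg : finrankAlong K φ' = finrankAlong K φ)
    (D : Divisor K F') :
    Divisor.pushforwardAlong φ hφ (Divisor.correspondence b' a' hb' ha' D)
      = Divisor.correspondence b a hb ha (Divisor.pushforwardAlong φ hφ D) := by
  rw [Divisor.correspondence_apply, Divisor.correspondence_apply,
    FF.pullbackAlong_pushforwardAlong_of_cartesian b φ φ' b' hsqb hb hφ hφ' hb' hfin hfin'
      hsep hsep' hgen hdeg,
    ← AddMonoidHom.comp_apply (Divisor.pushforwardAlong a ha),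
    ← FF.pushforwardAlong_comp a φ' ha hφ' hcomp,
    ← AddMonoidHom.comp_apply (Divisor.pushforwardAlong φ hφ),
    ← FF.pushforwardAlong_comp φ a' hφ ha' (hsqa ▸ hcomp)]
  exact DFunLike.congr_fun (pushforwardAlong_congr hsqa.symm _ _) _

end Abstract

variable {L : Type*} [Field L] [Algebra ℚ L]

/-- The two degeneracy images generate the function field of level `M q ℓ`, second branch. -/
theorem modField_le_map_sup_atkin {M q ℓ : ℕ} [NeZero q] [NeZero ℓ] (hq : q.Prime)
    (hℓ : ℓ.Prime) (hne : q ≠ ℓ) :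
    modField L (M * q * ℓ) ≤ (modField L (M * ℓ)).map (qExpandAlg L q) ⊔
      (modField L (M * q)).map (qExpandAlg L ℓ) := by
  rw [modField_le_iff]
  intro D hD hD0
  by_cases h1 : ℓ ∣ D
  · obtain ⟨e, rfl⟩ := h1
    haveI : NeZero e := ⟨right_ne_zero_of_mul hD0.ne⟩
    have he : e ∣ M * q := by
      rw [show M * q * ℓ = ℓ * (M * q) by ring] at hD
      exact Nat.dvd_of_mul_dvd_mul_left hℓ.pos hD
    refine SetLike.le_def.mp le_sup_right ⟨qExpand L e (jSer L), qExpand_jSer_mem he, ?_⟩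
    show qExpand L ℓ (qExpand L e (jSer L)) = _
    rw [qExpand_qExpand]
  by_cases h2 : q ∣ D
  · obtain ⟨e, rfl⟩ := h2
    haveI : NeZero e := ⟨right_ne_zero_of_mul hD0.ne⟩
    have he : e ∣ M * ℓ := by
      rw [show M * q * ℓ = q * (M * ℓ) by ring] at hD
      exact Nat.dvd_of_mul_dvd_mul_left hq.pos hD
    refine SetLike.le_def.mp le_sup_left ⟨qExpand L e (jSer L), qExpand_jSer_mem he, ?_⟩
    show qExpand L q (qExpand L e (jSer L)) = _
    rw [qExpand_qExpand]
  have hDM : D ∣ M :=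
    (hq.coprime_iff_not_dvd.mpr h2).symm.dvd_of_dvd_mul_right
      ((hℓ.coprime_iff_not_dvd.mpr h1).symm.dvd_of_dvd_mul_right hD)
  have hle : (adjoin L ({qExpand L q (jSer L), qExpand L ℓ (jSer L)} : Set (LaurentSeries L))).map
      (qExpandAlg L D) ≤ (modField L (M * ℓ)).map (qExpandAlg L q) ⊔
        (modField L (M * q)).map (qExpandAlg L ℓ) := by
    rw [map_le_iff_le_comap, adjoin_le_iff]
    rintro x (rfl | rfl)
    · show qExpand L D (qExpand L q (jSer L)) ∈
        (modField L (M * ℓ)).map (qExpandAlg L q) ⊔ (modField L (M * q)).map (qExpandAlg L ℓ)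
      refine SetLike.le_def.mp le_sup_left
        ⟨qExpand L D (jSer L), qExpand_jSer_mem (hDM.trans (dvd_mul_right M ℓ)), ?_⟩
      show qExpand L q (qExpand L D (jSer L)) = qExpand L D (qExpand L q (jSer L))
      rw [qExpand_qExpand, qExpand_qExpand]
      exact qExpand_congr (mul_comm q D) _
    · show qExpand L D (qExpand L ℓ (jSer L)) ∈
        (modField L (M * ℓ)).map (qExpandAlg L q) ⊔ (modField L (M * q)).map (qExpandAlg L ℓ)
      refine SetLike.le_def.mp le_sup_right
        ⟨qExpand L D (jSer L), qExpand_jSer_mem (hDM.trans (dvd_mul_right M q)), ?_⟩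
      show qExpand L ℓ (qExpand L D (jSer L)) = qExpand L D (qExpand L ℓ (jSer L))
      rw [qExpand_qExpand, qExpand_qExpand]
      exact qExpand_congr (mul_comm ℓ D) _
  exact hle ⟨jSer L, jSer_mem_adjoin_pair L ((Nat.coprime_primes hq hℓ).mpr hne), rfl⟩

theorem fieldRange_sup_eq_top_push {M q ℓ d : ℕ} [NeZero q] [NeZero ℓ] [NeZero d]
    (hq : q.Prime) (hℓ : ℓ.Prime) (hne : q ≠ ℓ) (hd : d ∣ q)
    (h₁ : M * ℓ * d ∣ M * q * ℓ) (h₂ : M * q * ℓ ∣ M * q * ℓ) :
    (degenMap L d h₁).fieldRange ⊔ (degenMap L ℓ h₂).fieldRange = ⊤ := by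
  rw [eq_top_iff]
  intro x _
  have hmap : (x : LaurentSeries L) ∈
      ((degenMap L d h₁).fieldRange ⊔ (degenMap L ℓ h₂).fieldRange).map
        (modField L (M * q * ℓ)).val := by
    rw [IntermediateField.map_sup, fieldRange_degenMap, fieldRange_degenMap]
    rcases (Nat.dvd_prime hq).mp hd with rfl | rfl
    · haveI : NeZero (ℓ * q) := ⟨Nat.mul_ne_zero (NeZero.ne ℓ) (NeZero.ne q)⟩
      have h := modField_le_map_sup (L := L) (N := M) hℓ hq hne.symm
        (functionFieldGeneration_all (ℓ * q))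
      rw [mul_right_comm M ℓ q] at h
      exact h x.2
    · exact modField_le_map_sup_atkin hq hℓ hne x.2
  obtain ⟨y, hy, hyx⟩ := hmap
  rwa [← Subtype.ext hyx]

theorem finrankAlong_degenMap_push {M q ℓ d : ℕ} [NeZero M] [NeZero q] [NeZero ℓ] [NeZero d]
    (hℓ : ℓ.Prime) (hMq : ¬ℓ ∣ M * q)
    (h₁ : M * ℓ * d ∣ M * q * ℓ) (h₂ : M * d ∣ M * q) :
    finrankAlong L (degenMap L d h₁) = finrankAlong L (degenMap L d h₂) := by
  have e₁ := finrankAlong_degenMap (degreeInput L) d h₁ (functionFieldGeneration_all d)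
  have e₂ := finrankAlong_degenMap (degreeInput L) d h₂ (functionFieldGeneration_all d)
  have hM : ¬ℓ ∣ M := fun h => hMq (h.trans (dvd_mul_right M q))
  rw [psi_mul_prime_of_not_dvd hℓ hM, psi_mul_prime_of_not_dvd hℓ hMq, ← e₂, mul_assoc] at e₁
  exact Nat.eq_of_mul_eq_mul_left (psi_pos M) (Nat.eq_of_mul_eq_mul_left (Nat.succ_pos ℓ) e₁)

section Main

variable {M q : ℕ} [NeZero M] [NeZero q]

variable (L) in
/-- Pushforward of divisors along a degeneracy map `M → M q`. -/
def degenPushDiv (d : ℕ) [NeZero d] (h : M * d ∣ M * q) :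
    Divisor L (modField L (M * q)) →+ Divisor L (modField L M) :=
  Divisor.pushforwardAlong (degenMap L d h) (isIntegral_degenMap (degreeInput L) d h)

theorem degenPushDiv_mem_principal (d : ℕ) [NeZero d] (h : M * d ∣ M * q)
    {D : Divisor L (modField L (M * q))} (hD : D.IsPrincipal) :
    (degenPushDiv L d h D).IsPrincipal :=
  Divisor.isPrincipal_pushforwardAlong _ _ (finiteAlong_degenMap (degreeInput L) d h)
    (FF.normFormulaAlong _ (finiteAlong_degenMap (degreeInput L) d h)
      (separableAlong_degenMap (degreeInput L) d h)) hD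

variable (L) in
/-- Pushforward on degree zero divisors. -/
def degenPushDegZero (d : ℕ) [NeZero d] (h : M * d ∣ M * q) :
    Divisor.degZero (K := L) (F := modField L (M * q)) →+
      Divisor.degZero (K := L) (F := modField L M) :=
  ((degenPushDiv L d h).domRestrict (Divisor.degZero (K := L) (F := modField L (M * q)))).codRestrict
    _ fun D => Divisor.pushforwardAlong_mem_degZero (degenMap L d h)
      (isIntegral_degenMap (degreeInput L) d h) D.2

@[simp]
theorem coe_degenPushDegZero (d : ℕ) [NeZero d] (h : M * d ∣ M * q)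
    (D : Divisor.degZero (K := L) (F := modField L (M * q))) :
    (degenPushDegZero L d h D : Divisor L (modField L M)) =
      degenPushDiv L d h (D : Divisor L (modField L (M * q))) := rfl

variable (L) in
/-- Pushforward of classes along a degeneracy map. -/
def degenPush (d : ℕ) [NeZero d] (h : M * d ∣ M * q) :
    Pic0 L (modField L (M * q)) →+ Pic0 L (modField L M) :=
  QuotientAddGroup.map _ _ (degenPushDegZero L d h) (by
    rintro ⟨D, hD0⟩ hD
    simp only [AddSubgroup.mem_addSubgroupOf] at hD ⊢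
    exact degenPushDiv_mem_principal d h hD)

@[simp]
theorem degenPush_mk (d : ℕ) [NeZero d] (h : M * d ∣ M * q)
    (D : Divisor.degZero (K := L) (F := modField L (M * q))) :
    degenPush L d h (Pic0.mk D) = Pic0.mk (degenPushDegZero L d h D) := rfl

theorem degenPushDiv_eq_alpha (h : M * 1 ∣ M * q) (hα : HeckeAlphaBarIntegral L M q) :
    degenPushDiv L 1 h = Divisor.pushforwardAlong (heckeAlphaBar L M q) hα :=
  pushforwardAlong_congr (heckeAlphaBar_eq_degenMap M q h).symm _ _

theorem degenPushDiv_eq_beta (h : M * q ∣ M * q) (hβ : HeckeBetaBarIntegral L M q) :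
    degenPushDiv L q h = Divisor.pushforwardAlong (heckeBetaBar L M q) hβ :=
  pushforwardAlong_congr (heckeBetaBar_eq_degenMap M q h).symm _ _

/-- Pushforward commutes with `T_ℓ` on divisors. -/
theorem degenPushDiv_heckeDivBar {ℓ : ℕ} [NeZero ℓ] (hq : q.Prime) (hℓ : ℓ.Prime)
    (hMq : ¬ℓ ∣ M * q) (d : ℕ) [NeZero d] (hd : d ∣ q) (h : M * d ∣ M * q)
    [HasPrincipalDivisors L (modField L (M * q * ℓ))]
    [HasPrincipalDivisors L (modField L (M * ℓ))]
    {hα : HeckeAlphaBarIntegral L (M * q) ℓ} {hβ : HeckeBetaBarIntegral L (M * q) ℓ}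
    {hα' : HeckeAlphaBarIntegral L M ℓ} {hβ' : HeckeBetaBarIntegral L M ℓ}
    (D : Divisor L (modField L (M * q))) :
    degenPushDiv L d h (heckeDivBar hα hβ D) = heckeDivBar hα' hβ' (degenPushDiv L d h D) := by
  have hne : q ≠ ℓ := fun e => hMq (e ▸ dvd_mul_left q M)
  have hD := degreeInput L
  haveI := hasPrincipalDivisors_level L (M * q)
  have ha : M * q * 1 ∣ M * q * ℓ := mul_dvd_mul_left _ (one_dvd ℓ)
  have ha' : M * 1 ∣ M * ℓ := mul_dvd_mul_left _ (one_dvd ℓ)
  have hu : M * ℓ * d ∣ M * q * ℓ := by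
    rw [mul_right_comm M ℓ d]; exact mul_dvd_mul_right h ℓ
  haveI : NeZero (ℓ * d) := ⟨Nat.mul_ne_zero (NeZero.ne ℓ) (NeZero.ne d)⟩
  have hld : M * (ℓ * d) ∣ M * q * ℓ := by rw [← mul_assoc]; exact hu
  have hd1 : M * d ∣ M * q * ℓ := h.trans (dvd_mul_right _ ℓ)
  rw [heckeDivBar_eq_degenMap hD ha, heckeDivBar_eq_degenMap hD ha', degenPushDiv]
  refine pushforward_correspondence (degenMap L d h) (degenMap L d hu) _ _ _ _ ?_ ?_ _
    (isIntegral_degenMap hD d hu) _ _ _ _ ?_ (finiteAlong_degenMap hD d h)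
    (finiteAlong_degenMap hD d hu) (separableAlong_degenMap hD d h)
    (separableAlong_degenMap hD d hu)
    (fieldRange_sup_eq_top_push hq hℓ hne hd hu dvd_rfl)
    (finrankAlong_degenMap_push hℓ hMq hu h) D
  · rw [degenMap_comp ℓ d (ℓ * d) (dvd_refl (M * ℓ)) hu (mul_comm ℓ d) hld,
      degenMap_comp d ℓ (ℓ * d) h dvd_rfl rfl hld]
  · rw [degenMap_comp 1 d d ha' hu (mul_one d).symm hd1,
      degenMap_comp d 1 d h ha (one_mul d).symm hd1]
  · rw [degenMap_comp 1 d d ha' hu (mul_one d).symm hd1]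
    exact isIntegral_degenMap hD d hd1

/-- Pushforward commutes with `T_ℓ` on divisor classes. -/
theorem degenPush_heckeOperatorAlong {ℓ : ℕ} [NeZero ℓ] (hq : q.Prime) (hℓ : ℓ.Prime)
    (hMq : ¬ℓ ∣ M * q) (d : ℕ) [NeZero d] (hd : d ∣ q) (h : M * d ∣ M * q)
    (x : Pic0 L (modField L (M * q))) :
    degenPush L d h (heckeOperatorAlong L (M * q) ℓ x)
      = heckeOperatorAlong L M ℓ (degenPush L d h x) := by
  have hD := degreeInput L
  haveI := hasPrincipalDivisors_level L (M * q * ℓ)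
  haveI := hasPrincipalDivisors_level L (M * ℓ)
  rw [heckeOperatorAlong_eq (heckeAlphaBarIntegral_of (M * q) ℓ hD)
      (heckeBetaBarIntegral_of (M * q) ℓ hD) (fundamentalIdentityAlong_heckeBetaBar (M * q) ℓ hD)
      (finiteAlong_heckeAlphaBar (M * q) ℓ hD) (normFormulaAlong_heckeAlphaBar (M * q) ℓ hD),
    heckeOperatorAlong_eq (heckeAlphaBarIntegral_of M ℓ hD) (heckeBetaBarIntegral_of M ℓ hD)
      (fundamentalIdentityAlong_heckeBetaBar M ℓ hD) (finiteAlong_heckeAlphaBar M ℓ hD)
      (normFormulaAlong_heckeAlphaBar M ℓ hD)]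
  obtain ⟨D, rfl⟩ := Pic0.mk_surjective x
  rw [heckePic0Bar_mk, degenPush_mk, degenPush_mk, heckePic0Bar_mk]
  exact congrArg Pic0.mk (Subtype.ext (degenPushDiv_heckeDivBar (hα := heckeAlphaBarIntegral_of (M * q) ℓ hD)
    (hβ := heckeBetaBarIntegral_of (M * q) ℓ hD) hq hℓ hMq d hd h _))

end Main

end Fermat.Agent.BAD.Modular
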