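import Fermat.Agent.RED.Specialization.SwapField
import Fermat.Agent.HK.HeckeFinal
import Fermat.Agent.BAD.Gauss

/-!
# The second expansion of the modular function field of level `M * p`
-/

set_option autoImplicit false
set_option linter.style.haveILetI false

noncomputable section

open AlgebraicCurve ModularCurve IntermediateField
open Fermat.Agent.HK.Corr

namespace Fermat.Agent.BAD.Modular

variable {L : Type*} [Field L] [Algebra ℚ L] {M p : ℕ}

theorem modField_le_sup_map (hp : p.Prime) [NeZero p] :
    modField L (M * p) ≤ modField L M ⊔ (modField L M).map (qExpandAlg L p) := by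
  rw [modField_le_iff]
  intro d hd hd0
  by_cases h : p ∣ d
  · obtain ⟨e, rfl⟩ := h
    haveI : NeZero e := ⟨right_ne_zero_of_mul hd0.ne⟩
    have he : e ∣ M := by
      rw [mul_comm M p] at hd
      exact Nat.dvd_of_mul_dvd_mul_left hp.pos hd
    refine SetLike.le_def.mp le_sup_right ⟨qExpand L e (jSer L), qExpand_jSer_mem he, ?_⟩
    show qExpand L p (qExpand L e (jSer L)) = _
    rw [qExpand_qExpand]
  · exact SetLike.le_def.mp le_sup_left (qExpand_jSer_mem
      (((hp.coprime_iff_not_dvd.mpr h).symm).dvd_of_dvd_mul_right hd))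

variable [NeZero M] [NeZero p]

/-- Homomorphisms out of level `M * p` are determined on the two degeneracy images. -/
theorem algHom_ext_degen (hp : p.Prime) {X : Type*} [Field X] [Algebra L X]
    {f g : modField L (M * p) →ₐ[L] X}
    (hα : ∀ x, f (heckeAlphaBar L M p x) = g (heckeAlphaBar L M p x))
    (hβ : ∀ x, f (heckeBetaBar L M p x) = g (heckeBetaBar L M p x)) : f = g := by
  let S : IntermediateField L (modField L (M * p)) :=
    { AlgHom.equalizer f g with
      inv_mem' := fun x (hx : f x = g x) => show f x⁻¹ = g x⁻¹ by rw [map_inv₀, map_inv₀, hx] }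
  have hle : modField L (M * p) ≤ S.map (modField L (M * p)).val := by
    refine (modField_le_sup_map hp).trans (sup_le ?_ ?_)
    · intro x hx
      exact ⟨heckeAlphaBar L M p ⟨x, hx⟩, hα _, coe_heckeAlphaBar M p ⟨x, hx⟩⟩
    · rintro _ ⟨x, hx, rfl⟩
      exact ⟨heckeBetaBar L M p ⟨x, hx⟩, hβ _, coe_heckeBetaBar M p ⟨x, hx⟩⟩
  refine AlgHom.ext fun x => ?_
  obtain ⟨y, hy, hyx⟩ := hle x.2
  exact (Subtype.ext hyx : y = x) ▸ hy

/-- An embedding of level `M * p` exchanging the degeneracy images. -/
def swapEmb (ι : L →+* ℂ) (hp : p.Prime) (hpM : ¬ p ∣ M) :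
    modField L (M * p) →ₐ[L] LaurentSeries L :=
  (RED.Spec.exists_swap_embedding (L := L) (N := M) ι hp hpM).choose

variable (ι : L →+* ℂ) (hp : p.Prime) (hpM : ¬ p ∣ M)

theorem swapEmb_alpha (x : modField L M) :
    swapEmb ι hp hpM (heckeAlphaBar L M p x) = qExpand L p (x : LaurentSeries L) :=
  (RED.Spec.exists_swap_embedding (L := L) (N := M) ι hp hpM).choose_spec.1 x

theorem swapEmb_beta (x : modField L M) :
    swapEmb ι hp hpM (heckeBetaBar L M p x) = (x : LaurentSeries L) :=
  (RED.Spec.exists_swap_embedding (L := L) (N := M) ι hp hpM).choose_spec.2 x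

/-- The second expansion does not depend on the embedding into `ℂ`. -/
theorem swapEmb_unique {ψ : modField L (M * p) →ₐ[L] LaurentSeries L}
    (hα : ∀ x, ψ (heckeAlphaBar L M p x) = qExpand L p (x : LaurentSeries L))
    (hβ : ∀ x, ψ (heckeBetaBar L M p x) = (x : LaurentSeries L)) : ψ = swapEmb ι hp hpM :=
  algHom_ext_degen hp (fun x => by rw [hα, swapEmb_alpha]) fun x => by rw [hβ, swapEmb_beta]

section Galois

omit [NeZero M] [NeZero p] in
theorem arith_smul_apply (σ : L ≃ₐ[ℚ] L) (N : ℕ) (x : modField L N) :
    ((arithmeticGalois (modularFunctionFieldFull N) σ • x : modField L N) : LaurentSeries L) =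
      coeffMap (σ : L →+* L) (x : LaurentSeries L) :=
  coe_arithmeticGalois_smul _ σ x

theorem arith_smul_alpha (σ : L ≃ₐ[ℚ] L) (x : modField L M) :
    arithmeticGalois (modularFunctionFieldFull (M * p)) σ • heckeAlphaBar L M p x =
      heckeAlphaBar L M p (arithmeticGalois (modularFunctionFieldFull M) σ • x) :=
  Subtype.ext (by
    rw [arith_smul_apply, coe_heckeAlphaBar, coe_heckeAlphaBar, arith_smul_apply])

theorem arith_smul_beta (σ : L ≃ₐ[ℚ] L) (x : modField L M) :
    arithmeticGalois (modularFunctionFieldFull (M * p)) σ • heckeBetaBar L M p x =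
      heckeBetaBar L M p (arithmeticGalois (modularFunctionFieldFull M) σ • x) :=
  Subtype.ext (by
    rw [arith_smul_apply, coe_heckeBetaBar, coe_heckeBetaBar, arith_smul_apply,
      ModularCurve.coeffMap_qExpand])

/-- The second expansion commutes with the action on coefficients. -/
theorem swapEmb_arith (σ : L ≃ₐ[ℚ] L) (x : modField L (M * p)) :
    swapEmb ι hp hpM (arithmeticGalois (modularFunctionFieldFull (M * p)) σ • x) =
      coeffMap (σ : L →+* L) (swapEmb ι hp hpM x) := by
  set g := arithmeticGalois (L := L) (modularFunctionFieldFull (M * p)) σ with hg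
  let ψ : modField L (M * p) →ₐ[L] LaurentSeries L :=
    { (coeffMap (σ.symm : L →+* L)).comp ((swapEmb ι hp hpM).toRingHom.comp
        (SemilinearAut.toRingAut g).toRingHom) with
      commutes' := fun c => by
        show coeffMap (σ.symm : L →+* L) (swapEmb ι hp hpM (g • algebraMap L _ c)) = _
        rw [SemilinearAut.smul_algebraMap, AlgHom.commutes, coeffMap_algebraMap]
        exact congrArg _ (σ.symm_apply_apply c) }
  have hψ : ψ = swapEmb ι hp hpM := by
    refine swapEmb_unique ι hp hpM (fun y => ?_) fun y => ?_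
    · show coeffMap (σ.symm : L →+* L) (swapEmb ι hp hpM (g • heckeAlphaBar L M p y)) = _
      rw [hg, arith_smul_alpha, swapEmb_alpha, arith_smul_apply,
        ← ModularCurve.coeffMap_qExpand, coeffMap_coeffMap,
        coeffMap_congr (g := RingHom.id L) (RingHom.ext fun a => σ.symm_apply_apply a),
        coeffMap_id]
    · show coeffMap (σ.symm : L →+* L) (swapEmb ι hp hpM (g • heckeBetaBar L M p y)) = _
      rw [hg, arith_smul_beta, swapEmb_beta, arith_smul_apply, coeffMap_coeffMap,
        coeffMap_congr (g := RingHom.id L) (RingHom.ext fun a => σ.symm_apply_apply a),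
        coeffMap_id]
  have h : coeffMap (σ.symm : L →+* L) (swapEmb ι hp hpM (g • x)) = swapEmb ι hp hpM x :=
    DFunLike.congr_fun hψ x
  rw [← h, coeffMap_coeffMap,
    coeffMap_congr (g := RingHom.id L) (RingHom.ext fun a => σ.apply_symm_apply a), coeffMap_id]

end Galois

section Integral

omit [NeZero M] [NeZero p] in
theorem jqModC_eq_castSeries (R : Type*) [CommRing R] :
    jqModC R = Gauss.castSeries R (jqModC ℤ) := (coeffMap_jqModC _).symm

omit [NeZero M] [NeZero p] in
theorem qExpand_mem_intField (d : ℕ) [NeZero d] {y : LaurentSeries L}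
    (hy : y ∈ Gauss.intField L) : qExpand L d y ∈ Gauss.intField L := by
  have : Gauss.intField L ≤ (Gauss.intField L).comap (qExpandAlg L d) := by
    refine IntermediateField.adjoin_le_iff.mpr ?_
    rintro _ ⟨s, rfl⟩
    show qExpand L d (Gauss.castSeries L s) ∈ Gauss.intField L
    rw [Gauss.castSeries, ← ModularCurve.coeffMap_qExpand]
    exact Gauss.castSeries_mem_intField _
  exact this hy

omit [NeZero M] [NeZero p] in
theorem modField_le_intField (N : ℕ) : modField L N ≤ Gauss.intField L := by
  rw [modField_le_iff]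
  intro d _ _
  refine qExpand_mem_intField d ?_
  rw [RED.Spec.jSer_eq_jqModC, jqModC_eq_castSeries]
  exact Gauss.castSeries_mem_intField _

theorem swapEmb_mem_intField (x : modField L (M * p)) :
    swapEmb ι hp hpM x ∈ Gauss.intField L := by
  have hle : modField L (M * p) ≤
      ((Gauss.intField L).comap (swapEmb ι hp hpM)).map (modField L (M * p)).val := by
    refine (modField_le_sup_map hp).trans (sup_le ?_ ?_)
    · intro y hy
      refine ⟨heckeAlphaBar L M p ⟨y, hy⟩, ?_, coe_heckeAlphaBar M p ⟨y, hy⟩⟩
      show swapEmb ι hp hpM _ ∈ Gauss.intField L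
      rw [swapEmb_alpha]
      exact qExpand_mem_intField p (modField_le_intField M hy)
    · rintro _ ⟨y, hy, rfl⟩
      refine ⟨heckeBetaBar L M p ⟨y, hy⟩, ?_, coe_heckeBetaBar M p ⟨y, hy⟩⟩
      show swapEmb ι hp hpM _ ∈ Gauss.intField L
      rw [swapEmb_beta]
      exact modField_le_intField M hy
  obtain ⟨y, hy, hyx⟩ := hle x.2
  exact (Subtype.ext hyx : y = x) ▸ hy

end Integral

/-- The two expansions: the identity and the exchanged one. -/
def expansion : Fin 2 → (modField L (M * p) →ₐ[L] LaurentSeries L) :=
  ![(modField L (M * p)).val, swapEmb ι hp hpM]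

theorem expansion_zero : expansion ι hp hpM 0 = (modField L (M * p)).val := rfl

theorem expansion_one : expansion ι hp hpM 1 = swapEmb ι hp hpM := rfl

theorem expansion_mem_intField (i : Fin 2) (x : modField L (M * p)) :
    expansion ι hp hpM i x ∈ Gauss.intField L := by
  revert i
  rw [Fin.forall_fin_two, expansion_zero, expansion_one]
  exact ⟨modField_le_intField _ x.2, swapEmb_mem_intField ι hp hpM x⟩

theorem expansion_arith (σ : L ≃ₐ[ℚ] L) (i : Fin 2) (x : modField L (M * p)) :
    expansion ι hp hpM i (arithmeticGalois (modularFunctionFieldFull (M * p)) σ • x) =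
      coeffMap (σ : L →+* L) (expansion ι hp hpM i x) := by
  revert i
  rw [Fin.forall_fin_two, expansion_zero, expansion_one]
  refine ⟨?_, swapEmb_arith ι hp hpM σ x⟩
  rw [IntermediateField.coe_val]
  exact arith_smul_apply σ _ x

variable (L M p) in
/-- The two degeneracy maps. -/
def degen : Fin 2 → (modField L M →ₐ[L] modField L (M * p)) :=
  ![heckeAlphaBar L M p, heckeBetaBar L M p]

theorem degen_zero : degen L M p 0 = heckeAlphaBar L M p := rfl

theorem degen_one : degen L M p 1 = heckeBetaBar L M p := rfl

theorem expansion_degen_self (i : Fin 2) (x : modField L M) :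
    expansion ι hp hpM i (degen L M p i x) = (x : LaurentSeries L) := by
  revert i
  rw [Fin.forall_fin_two, expansion_zero, expansion_one, degen_zero, degen_one]
  refine ⟨?_, swapEmb_beta ι hp hpM x⟩
  rw [IntermediateField.coe_val]
  exact coe_heckeAlphaBar M p x

theorem expansion_degen_swap (i : Fin 2) (x : modField L M) :
    expansion ι hp hpM (1 - i) (degen L M p i x) =
      qExpand L p (expansion ι hp hpM i (degen L M p i x)) := by
  rw [expansion_degen_self]
  revert i
  rw [Fin.forall_fin_two, sub_zero, sub_self, expansion_zero, expansion_one, degen_zero, degen_one]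
  refine ⟨swapEmb_alpha ι hp hpM x, ?_⟩
  rw [IntermediateField.coe_val]
  exact coe_heckeBetaBar M p x

end Fermat.Agent.BAD.Modular
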