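import Fermat.Agent.BAD.Modular.Basics
import Fermat.Agent.BAD.Twin.Basic
import Fermat.Agent.BAD.Twin.Laurent
import Fermat.Agent.BAD.Arch
import Fermat.Agent.RED.X0Red

/-!
# The twin of `X₀(M q)` at a place over `q`
-/

set_option autoImplicit false
set_option linter.unusedSectionVars false
set_option linter.style.haveILetI false
set_option synthInstance.maxHeartbeats 200000

noncomputable section

open AlgebraicCurve ModularCurve IsLocalRing Fermat.Agent.HK.Corr

namespace Fermat.Agent.BAD.Modular

variable {M q : ℕ} [NeZero M] [NeZero q] (hq : q.Prime) (hqM : ¬ q ∣ M)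
  {A : ValuationSubring Qb} (hA : A.LiesOverPrime q)

include hq hA in
theorem resChar : Gauss.ResChar (residue A) q := fun n => by
  rw [residue_eq_zero_iff, ← ValuationSubring.coe_mem_nonunits_iff]
  push_cast
  exact Galois.place_intCast_mem_nonunits_iff hA hq n

include hA in
theorem scalable (i : Fin 2) : Gauss.Scalable (residue A) (emb M hq hqM i) :=
  Gauss.scalable_of_mem_intField _ hq.two_le (resChar hq hA) (emb_mem_intField M hq hqM i)

include hq hA in
theorem qExpand_mem_special (c : LaurentSeries (ResidueField A))
    (hc : c ∈ modularFunctionFieldFullC (ResidueField A) M) :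
    qExpand (ResidueField A) q c ∈ modularFunctionFieldFullC (ResidueField A) M := by
  haveI := Fact.mk hq
  haveI := Galois.place_charP_residueField hA hq
  haveI := Galois.place_residueField_isAlgClosed A
  haveI : PerfectRing (ResidueField A) q := PerfectField.toPerfectRing q
  have h := RED.Spec.laurentSeries_pow_char q
    (coeffMap ((frobeniusEquiv (ResidueField A) q).symm : ResidueField A →+* ResidueField A) c)
  have hid : coeffMap (frobenius (ResidueField A) q) (coeffMap
      ((frobeniusEquiv (ResidueField A) q).symm : ResidueField A →+* ResidueField A) c) = c := by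
    rw [coeffMap_coeffMap]
    refine (coeffMap_congr (g := RingHom.id (ResidueField A)) ?_ c).trans (coeffMap_id c)
    exact RingHom.ext fun x => frobenius_apply_frobeniusEquiv_symm (ResidueField A) q x
  rw [hid] at h
  rw [← h]
  exact pow_mem (RED.Spec.coeffMap_mem_fullC M _ hc) q

include hq hA in
theorem qExpand_jqModC_eq_pow :
    qExpand (ResidueField A) q (jqModC (ResidueField A)) = jqModC (ResidueField A) ^ q := by
  haveI := Fact.mk hq
  haveI := Galois.place_charP_residueField hA hq
  rw [RED.Spec.laurentSeries_pow_char q, coeffMap_jqModC]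

theorem order_jqModC (k : Type*) [Field k] : (jqModC k).order = -1 := by
  have h : (jqModC k).coeff (-1) ≠ 0 := by rw [coeff_jqModC_neg_one]; exact one_ne_zero
  refine le_antisymm (HahnSeries.order_le_of_coeff_ne_zero h) (not_lt.mp fun hlt => ?_)
  exact (mt HahnSeries.coeff_order_eq_zero.mp (jqModC_ne_zero_of_nontrivial k))
    (coeff_jqModC_of_lt k hlt)

variable (M)

/-- The twin of `X₀(M q)`. -/
def twin : Twin (residue A) q (modularFunctionFieldBar (M * q)) (modularFunctionFieldBar M)
    (modularFunctionFieldFullC (ResidueField A) M) where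
  eE := (modularFunctionFieldBar M).val
  e := emb M hq hqM
  a := heckeAlphaBar Qb M q
  b := heckeBetaBar Qb M q
  e0a := emb_zero_alpha M hq hqM
  e0b := emb_zero_beta M hq hqM
  e1a := emb_one_alpha M hq hqM
  e1b := emb_one_beta M hq hqM
  scalable := scalable hq hqM hA
  arch x hx c hc :=
    haveI : Algebra.IsAlgebraic ℚ Qb := AlgebraicClosure.isAlgebraic ℚ
    exists_pow_div_mem hA hq hx hc
  surjective := residue_surjective
  W := (RED.x0Red hq hqM hA).W
  redW := (RED.x0Red hq hqM hA).red
  algebraMap_memW := (RED.x0Red hq hqM hA).algebraMap_mem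
  red_algebraMapW := (RED.x0Red hq hqM hA).red_algebraMap'
  inv_memW u hu := (RED.x0Red hq hqM hA).inv_mem_of_red_ne_zero hu
  scaleW x hx := by
    obtain ⟨c, w, -, hw, he⟩ := (RED.x0Red hq hqM hA).exists_scale hx
    exact ⟨c, w, hw, he.trans (Algebra.smul_def c _).symm⟩
  isFrac := Gauss.exists_isFrac_of_constRed (RED.good_modL hq hqM hA)
  qExpand_mem := qExpand_mem_special hq hA
  jW := RED.x0Param hq hqM hA
  jW_order := by rw [RED.red_x0Param, RED.coe_jSpecial, order_jqModC]
  jW_ne := by rw [RED.red_x0Param, RED.coe_jSpecial]; exact jqModC_ne_zero_of_nontrivial _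
  jW_frob := by rw [RED.red_x0Param, RED.coe_jSpecial]; exact qExpand_jqModC_eq_pow hq hA
  two_le := hq.two_le
  finite_a := finiteAlong_heckeAlphaBar M q (degreeInput Qb)
  finite_b := finiteAlong_heckeBetaBar M q (degreeInput Qb)
  finrank_a := finrankAlong_heckeAlphaBar_of_not_dvd M q (degreeInput Qb) hq hqM
  finrank_b := finrankAlong_heckeBetaBar_eq_succ Qb M q hq hqM

end Fermat.Agent.BAD.Modular
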